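/-
S55 : the shared arithmetic definitions (global and local Galois groups with their level
systems, the basic Galois modules inside `Additive (AlgebraicClosure ℚ)ˣ`).
-/
import Fermat.Agent.S55.Coh.Modules
import Fermat.Prelude.Def_GroupCohomology_ContinuousUnramified

set_option autoImplicit false

namespace Fermat.Agent.S55

open scoped Pointwise

/-- The algebraic closure of `ℚ`. -/
abbrev Qb : Type := AlgebraicClosure ℚ

/-- The absolute Galois group of `ℚ`. -/
abbrev GQ : Type := Qb ≃ₐ[ℚ] Qb

/-! ### General constructions on modules -/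

section general

variable {G : Type} [Group G] (𝓝 : LevelSys G) (A : Type) [AddCommGroup A] [DistribMulAction G A]

/-- The smooth vectors of `A` with respect to a level system. -/
def smoothPart : GSub G A where
  carrier := {a | ∃ N ∈ 𝓝.carrier, ∀ n ∈ N, n • a = a}
  zero_mem' := by
    obtain ⟨N, hN⟩ := 𝓝.nonempty
    exact ⟨N, hN, fun n _ => smul_zero n⟩
  add_mem' := by
    rintro a b ⟨N, hN, h⟩ ⟨N', hN', h'⟩
    obtain ⟨N'', hN'', hle⟩ := 𝓝.directed N hN N' hN'
    exact ⟨N'', hN'', fun n hn => by rw [smul_add, h n (hle hn).1, h' n (hle hn).2]⟩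
  neg_mem' := by
    rintro a ⟨N, hN, h⟩
    exact ⟨N, hN, fun n hn => by rw [smul_neg, h n hn]⟩
  smul_mem' := by
    rintro g a ⟨N, hN, h⟩
    refine ⟨N, hN, fun n hn => ?_⟩
    have hN' := 𝓝.normal N hN
    have h1 : g⁻¹ * n * g ∈ N := by
      have := hN'.conj_mem n hn g⁻¹
      simpa using this
    have h2 := h _ h1
    calc n • g • a = g • (g⁻¹ * n * g) • a := by simp [mul_smul]
      _ = g • a := by rw [h2]

instance : Smooth 𝓝 (smoothPart 𝓝 A).Mod where
  exists_fix := by
    rintro ⟨a, N, hN, h⟩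
    exact ⟨N, hN, fun n hn => Subtype.ext (h n hn)⟩

/-- The `m`-torsion of `A`. -/
def torsPart (G : Type) [Group G] (A : Type) [AddCommGroup A] [DistribMulAction G A] (m : ℕ) :
    GSub G A where
  carrier := {a | m • a = 0}
  zero_mem' := smul_zero m
  add_mem' := by
    intro a b ha hb
    simp only [Set.mem_ofPred_eq] at ha hb ⊢
    rw [smul_add, ha, hb, add_zero]
  neg_mem' := by
    intro a ha
    simp only [Set.mem_ofPred_eq] at ha ⊢
    rw [smul_neg, ha, neg_zero]
  smul_mem' := by
    intro g a ha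
    simp only [Set.mem_ofPred_eq] at ha ⊢
    rw [smul_comm, ha, smul_zero]

end general

/-! ### Level systems on `GQ` -/

/-- `F` is stable under `GQ` (i.e. `F/ℚ` is normal); stated elementwise in order to avoid the
two competing `Algebra ℚ F` instances. -/
def IsStableField (F : IntermediateField ℚ Qb) : Prop := ∀ (g : GQ) (x : Qb), x ∈ F → g x ∈ F

theorem isStableField_bot : IsStableField ⊥ := by
  intro g x hx
  obtain ⟨r, rfl⟩ := IntermediateField.mem_bot.1 hx
  rw [g.commutes r]
  exact IntermediateField.algebraMap_mem _ r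

theorem IsStableField.sup {F F' : IntermediateField ℚ Qb} (h : IsStableField F)
    (h' : IsStableField F') : IsStableField (F ⊔ F') := by
  intro g x hx
  have h1 : F ⊔ F' ≤ (F ⊔ F').comap (g : Qb →ₐ[ℚ] Qb) := by
    refine sup_le (fun y hy => ?_) (fun y hy => ?_)
    · exact (le_sup_left : F ≤ F ⊔ F') (h g y hy)
    · exact (le_sup_right : F' ≤ F ⊔ F') (h' g y hy)
  exact h1 hx

theorem IsStableField.fixingSubgroup_normal {F : IntermediateField ℚ Qb} (hs : IsStableField F) :
    F.fixingSubgroup.Normal := by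
  refine ⟨fun n hn g => ?_⟩
  rw [IntermediateField.mem_fixingSubgroup_iff] at hn ⊢
  intro x hx
  have h1 := hn (g⁻¹ x) (hs g⁻¹ x hx)
  change g (n (g⁻¹ x)) = x
  rw [h1]
  exact g.apply_symm_apply x

theorem fixingSubgroup_finiteIndex (F : IntermediateField ℚ Qb) (hf : FiniteDimensional ℚ F) :
    F.fixingSubgroup.FiniteIndex := by
  have hf' : @FiniteDimensional ℚ F _ _ (IntermediateField.module' F) := by
    convert hf
  rw [Subgroup.finiteIndex_iff_finite_quotient]
  let φ : GQ → _ := fun g => ((g : Qb →ₐ[ℚ] Qb).comp F.val)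
  have key : ∀ a b : GQ, QuotientGroup.leftRel F.fixingSubgroup a b ↔ φ a = φ b := by
    intro a b
    rw [QuotientGroup.leftRel_apply, IntermediateField.mem_fixingSubgroup_iff]
    constructor
    · intro hab
      ext x
      have := hab x x.2
      change a x = b x
      have h2 : a ((a⁻¹ * b) (x : Qb)) = a x := by rw [this]
      rw [← h2]
      change a (a.symm (b x)) = b x
      exact a.apply_symm_apply _
    · intro hab x hx
      have h1 : a x = b x := DFunLike.congr_fun hab (⟨x, hx⟩ : F)
      change a.symm (b x) = x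
      rw [← h1]
      exact a.symm_apply_apply x
  refine Finite.of_injective (Quotient.lift φ fun a b h => (key a b).1 h) ?_
  intro x y
  induction x using Quotient.inductionOn
  induction y using Quotient.inductionOn
  intro h
  exact Quotient.sound ((key _ _).2 h)

/-- All finite Galois extensions of `ℚ` inside `Qb`. -/
def lvlAll : LevelSys GQ where
  carrier := {N | ∃ F : IntermediateField ℚ Qb, FiniteDimensional ℚ F ∧ IsStableField F ∧
    N = F.fixingSubgroup}
  nonempty := ⟨_, ⊥, (IntermediateField.isUnramifiedOutside_bot ∅).1, isStableField_bot, rfl⟩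
  normal := by
    rintro _ ⟨F, _, hn, rfl⟩
    exact hn.fixingSubgroup_normal
  finiteIndex := by
    rintro _ ⟨F, hf, hn, rfl⟩
    exact fixingSubgroup_finiteIndex F hf
  directed := by
    rintro _ ⟨F, hf, hn, rfl⟩ _ ⟨F', hf', hn', rfl⟩
    exact ⟨_, ⟨F ⊔ F', IntermediateField.finiteDimensional_sup F F', hn.sup hn', rfl⟩,
      (IntermediateField.fixingSubgroup_sup (K := F) (L := F')).le⟩

/-- The finite Galois extensions of `ℚ` inside `Qb` which are unramified outside `S`. -/
def lvlS (S : Finset Nat.Primes) : LevelSys GQ where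
  carrier := {N | ∃ F : IntermediateField ℚ Qb, F.IsUnramifiedOutside S ∧ IsStableField F ∧
    N = F.fixingSubgroup}
  nonempty := ⟨_, ⊥, IntermediateField.isUnramifiedOutside_bot S, isStableField_bot, rfl⟩
  normal := by
    rintro _ ⟨F, _, hn, rfl⟩
    exact hn.fixingSubgroup_normal
  finiteIndex := by
    rintro _ ⟨F, hf, hn, rfl⟩
    exact fixingSubgroup_finiteIndex F hf.1
  directed := by
    rintro _ ⟨F, hf, hn, rfl⟩ _ ⟨F', hf', hn', rfl⟩
    exact ⟨_, ⟨F ⊔ F', hf.sup hf', hn.sup hn', rfl⟩,
      (IntermediateField.fixingSubgroup_sup (K := F) (L := F')).le⟩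

theorem lvlS_le_lvlAll (S : Finset Nat.Primes) : (lvlS S).Le lvlAll := by
  rintro _ ⟨F, hf, hn, rfl⟩
  exact ⟨_, ⟨F, hf.1, hn, rfl⟩, le_rfl⟩

/-- The finite `GQ`-set attached to a field `F` ("the embeddings of `F` into `Qb`"). -/
abbrev XF (F : IntermediateField ℚ Qb) : Type := GQ ⧸ F.fixingSubgroup

/-! ### The basic Galois modules -/

/-- The multiplicative group of `Qb`, written additively. -/
abbrev Kx : Type := Additive Qbˣ

/-- A multiplicative distributive action gives a distributive action on the additive copy. -/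
instance instDistribMulActionAdditive {G M : Type} [Monoid G] [Monoid M]
    [MulDistribMulAction G M] : DistribMulAction G (Additive M) where
  smul g x := Additive.ofMul (g • Additive.toMul x)
  one_smul x := by
    change Additive.ofMul ((1 : G) • Additive.toMul x) = x
    rw [one_smul]; rfl
  mul_smul g h x := by
    change Additive.ofMul ((g * h) • Additive.toMul x) =
      Additive.ofMul (g • (h • Additive.toMul x))
    rw [mul_smul]
  smul_zero g := by
    change Additive.ofMul (g • (1 : M)) = 0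
    rw [smul_one]; rfl
  smul_add g x y := by
    change Additive.ofMul (g • (Additive.toMul x * Additive.toMul y)) =
      Additive.ofMul (g • Additive.toMul x) + Additive.ofMul (g • Additive.toMul y)
    rw [smul_mul']; rfl

/-- The underlying element of `Qb`. -/
noncomputable def Kx.val (x : Kx) : Qb := ((Additive.toMul x : Qbˣ) : Qb)

theorem Kx.val_smul (g : GQ) (x : Kx) : (g • x).val = g x.val := rfl

theorem Kx.val_add (x y : Kx) : (x + y).val = x.val * y.val := rfl

theorem Kx.val_zero : (0 : Kx).val = 1 := rfl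

theorem Kx.val_neg (x : Kx) : (-x).val = (x.val)⁻¹ := by
  simp [Kx.val]

/-- `μ_m` as a stable subgroup of `Kx`. -/
noncomputable def muSub (m : ℕ) : GSub GQ Kx := torsPart GQ Kx m

/-- The Galois module `μ_m`. -/
abbrev Mu (m : ℕ) : Type := (muSub m).Mod

/-- `(ℚ_S)ˣ` as a stable subgroup of `Kx`. -/
noncomputable def LSsub (S : Finset Nat.Primes) : GSub GQ Kx := smoothPart (lvlS S) Kx

/-- The Galois module `(ℚ_S)ˣ`. -/
abbrev LSx (S : Finset Nat.Primes) : Type := (LSsub S).Mod

/-- `x` is a unit at the valuation subring `A`. -/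
def Kx.IsUnitAt (A : ValuationSubring Qb) (x : Kx) : Prop := x.val ∈ A ∧ (x.val)⁻¹ ∈ A

theorem Kx.isUnitAt_smul_iff (A : ValuationSubring Qb) (g : GQ) (x : Kx) :
    (g • x).IsUnitAt A ↔ x.IsUnitAt (g⁻¹ • A) := by
  unfold Kx.IsUnitAt
  rw [ValuationSubring.mem_pointwise_smul_iff_inv_smul_mem,
    ValuationSubring.mem_pointwise_smul_iff_inv_smul_mem, inv_inv, Kx.val_smul]
  simp [AlgEquiv.smul_def]

theorem mem_nonunits_iff_inv_not_mem (A : ValuationSubring Qb) (x : Qb) (hx : x ≠ 0) :
    x ∈ A.nonunits ↔ x⁻¹ ∉ A := by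
  rw [ValuationSubring.mem_nonunits_iff, ← ValuationSubring.valuation_le_one_iff, map_inv₀,
    not_le, one_lt_inv₀ (zero_lt_iff.2 ((map_ne_zero _).2 hx))]

theorem liesOverPrime_smul (A : ValuationSubring Qb) (g : GQ) (q : ℕ)
    (hA : A.LiesOverPrime q) : (g • A).LiesOverPrime q := by
  unfold ValuationSubring.LiesOverPrime at hA ⊢
  by_cases hq : (q : Qb) = 0
  · rw [hq] at hA ⊢
    rw [ValuationSubring.mem_nonunits_iff] at hA ⊢
    simp
  · rw [mem_nonunits_iff_inv_not_mem _ _ hq] at hA ⊢
    rw [ValuationSubring.mem_pointwise_smul_iff_inv_smul_mem]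
    simpa [AlgEquiv.smul_def] using hA

/-- The `S`-units of `ℚ_S` as a stable subgroup of `Kx`. -/
noncomputable def ESsub (S : Finset Nat.Primes) : GSub GQ Kx where
  carrier := {x | x ∈ (LSsub S).toAddSubgroup ∧ ∀ q : Nat.Primes, q ∉ S →
    ∀ A : ValuationSubring Qb, A.LiesOverPrime (q : ℕ) → x.IsUnitAt A}
  zero_mem' := ⟨(LSsub S).toAddSubgroup.zero_mem, fun q _ A _ => by
    simp [Kx.IsUnitAt, Kx.val_zero, A.one_mem]⟩
  add_mem' := by
    rintro a b ⟨ha, ha'⟩ ⟨hb, hb'⟩
    refine ⟨(LSsub S).toAddSubgroup.add_mem ha hb, fun q hq A hA => ?_⟩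
    have h1 := ha' q hq A hA
    have h2 := hb' q hq A hA
    refine ⟨by rw [Kx.val_add]; exact A.mul_mem _ _ h1.1 h2.1, ?_⟩
    rw [Kx.val_add, mul_inv]
    exact A.mul_mem _ _ h1.2 h2.2
  neg_mem' := by
    rintro a ⟨ha, ha'⟩
    refine ⟨(LSsub S).toAddSubgroup.neg_mem ha, fun q hq A hA => ?_⟩
    have h1 := ha' q hq A hA
    refine ⟨by rw [Kx.val_neg]; exact h1.2, by rw [Kx.val_neg, inv_inv]; exact h1.1⟩
  smul_mem' := by
    rintro g a ⟨ha, ha'⟩
    refine ⟨(LSsub S).smul_mem' g ha, fun q hq A hA => ?_⟩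
    rw [Kx.isUnitAt_smul_iff]
    exact ha' q hq _ (liesOverPrime_smul A g⁻¹ q hA)

/-- The Galois module of `S`-units of `ℚ_S`. -/
abbrev ESx (S : Finset Nat.Primes) : Type := (ESsub S).Mod

/-! ### Local groups -/

/-- The local Galois group `Gal(ℚ̄_q/ℚ_q)` of the Prelude. -/
abbrev Gv (q : Nat.Primes) : Type := ExtCitation.primeLocalGaloisGroup q

/-- The Prelude's map from the local to the global Galois group. -/
noncomputable abbrev ιv (q : Nat.Primes) : Gv q →* GQ := ExtCitation.primeLocalToGlobal q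

/-- The level system on the local Galois group induced by the global one. -/
noncomputable def lvlLoc (q : Nat.Primes) : LevelSys (Gv q) := lvlAll.comap (ιv q)

theorem lvlS_comap_le_lvlLoc (S : Finset Nat.Primes) (q : Nat.Primes) :
    ((lvlS S).comap (ιv q)).Le (lvlLoc q) := by
  rintro _ ⟨_, ⟨F, hf, hn, rfl⟩, rfl⟩
  exact ⟨_, ⟨_, ⟨F, hf.1, hn, rfl⟩, rfl⟩, le_rfl⟩

/-- `ℚ/ℤ`. -/
abbrev QZ : Type := ℚ ⧸ (AddMonoidHom.range (Int.castAddHom ℚ))

end Fermat.Agent.S55
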