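/-
S55 : smoothness of the basic Galois modules.
-/
import Fermat.Agent.S55.Arith.Defs
import Fermat.Agent.S55.Coh.SetDefs

set_option autoImplicit false

namespace Fermat.Agent.S55

/-- `Qb` is integral over `ℚ` (for the default `ℚ`-algebra structure). -/
theorem isIntegral_Qb (x : Qb) : IsIntegral ℚ x := by
  have h : (DivisionRing.toRatAlgebra : Algebra ℚ Qb) = AlgebraicClosure.instAlgebra ℚ :=
    Subsingleton.elim _ _
  have h2 : @IsIntegral ℚ Qb _ _ (AlgebraicClosure.instAlgebra ℚ) x :=
    Algebra.IsIntegral.isIntegral x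
  rw [← h] at h2
  exact h2

/-- Every algebraic number lies in a finite Galois extension of `ℚ`. -/
theorem exists_stable_finite (x : Qb) :
    ∃ F : IntermediateField ℚ Qb, FiniteDimensional ℚ F ∧ IsStableField F ∧ x ∈ F := by
  have hx : IsIntegral ℚ x := isIntegral_Qb x
  have h0 : minpoly ℚ x ≠ 0 := minpoly.ne_zero hx
  refine ⟨IntermediateField.adjoin ℚ ((minpoly ℚ x).rootSet Qb), ?_, ?_, ?_⟩
  · have : FiniteDimensional ℚ (IntermediateField.adjoin ℚ ((minpoly ℚ x).rootSet Qb)) :=
      IntermediateField.finiteDimensional_adjoin fun y _ => isIntegral_Qb y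
    convert this
  · intro g y hy
    have h1 : IntermediateField.adjoin ℚ ((minpoly ℚ x).rootSet Qb) ≤
        (IntermediateField.adjoin ℚ ((minpoly ℚ x).rootSet Qb)).comap (g : Qb →ₐ[ℚ] Qb) := by
      rw [IntermediateField.adjoin_le_iff]
      intro r hr
      refine IntermediateField.subset_adjoin ℚ _ ?_
      rw [Polynomial.mem_rootSet] at hr ⊢
      refine ⟨hr.1, ?_⟩
      change Polynomial.aeval (g r) (minpoly ℚ x) = 0
      rw [Polynomial.aeval_algHom_apply, hr.2, map_zero]
    exact h1 hy
  · refine IntermediateField.subset_adjoin ℚ _ ?_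
    rw [Polynomial.mem_rootSet]
    exact ⟨h0, minpoly.aeval ℚ x⟩

instance instSmoothKx : Smooth lvlAll Kx where
  exists_fix a := by
    obtain ⟨F, hf, hs, hx⟩ := exists_stable_finite a.val
    refine ⟨F.fixingSubgroup, ⟨F, hf, hs, rfl⟩, fun n hn => ?_⟩
    have h1 : n a.val = a.val := (IntermediateField.mem_fixingSubgroup_iff F n).1 hn _ hx
    apply Additive.toMul.injective
    apply Units.ext
    exact h1

/-- Modules which are smooth for `lvlS S` are smooth for `lvlAll`. -/
theorem smooth_lvlAll_of_lvlS (S : Finset Nat.Primes) (A : Type) [AddCommGroup A]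
    [DistribMulAction GQ A] [Smooth (lvlS S) A] : Smooth lvlAll A :=
  Smooth.of_le (lvlS_le_lvlAll S)

instance instSmoothLoc (q : Nat.Primes) (A : Type) [AddCommGroup A] [DistribMulAction GQ A]
    [Smooth lvlAll A] : Smooth (lvlLoc q) (ResMod (ιv q) A) :=
  inferInstanceAs (Smooth (lvlAll.comap (ιv q)) (ResMod (ιv q) A))

/-- Local smoothness of a module which is smooth for `lvlS S`. -/
theorem smooth_lvlLoc_of_lvlS (S : Finset Nat.Primes) (q : Nat.Primes) (A : Type) [AddCommGroup A]
    [DistribMulAction GQ A] [Smooth (lvlS S) A] : Smooth (lvlLoc q) (ResMod (ιv q) A) :=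
  haveI := smooth_lvlAll_of_lvlS S A
  inferInstance

instance instSmoothMu (m : ℕ) : Smooth lvlAll (Mu m) :=
  inferInstanceAs (Smooth lvlAll (muSub m).Mod)

instance instSmoothSetLoc (q : Nat.Primes) (X : Type) [MulAction GQ X] [SmoothSet lvlAll X] :
    SmoothSet (lvlLoc q) (ResSet (ιv q) X) :=
  inferInstanceAs (SmoothSet (lvlAll.comap (ιv q)) (ResSet (ιv q) X))

end Fermat.Agent.S55
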