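/-
S55 : the localisation maps `H^n_S(A) → H^n_q(A)` and the groups `Sha^n_S(A)`.
-/
import Fermat.Agent.S55.Arith.Defs
import Fermat.Agent.S55.Coh.Res

set_option autoImplicit false

namespace Fermat.Agent.S55

variable (S : Finset Nat.Primes) (A : Type) [AddCommGroup A] [DistribMulAction GQ A]

/-- The localisation map `H^n_S(A) → H^n_q(A)`. -/
noncomputable def locS (q : Nat.Primes) (n : ℕ) :
    Hsm (lvlS S) A n →+ Hsm (lvlLoc q) (ResMod (ιv q) A) n :=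
  Hsm.res A (ιv q) (lvlLoc q) (lvlS S) (lvlS_comap_le_lvlLoc S q) n

/-- `Sha^n_S(A)` : the classes of `H^n_S(A)` which vanish at all `q ∈ S`. -/
noncomputable def Sha (n : ℕ) : AddSubgroup (Hsm (lvlS S) A n) :=
  ⨅ q : ↥S, (locS S A q.1 n).ker

variable {S A}

theorem mem_Sha_iff {n : ℕ} {x : Hsm (lvlS S) A n} :
    x ∈ Sha S A n ↔ ∀ q : ↥S, locS S A q.1 n x = 0 := by
  simp [Sha, AddSubgroup.mem_iInf, AddMonoidHom.mem_ker]

theorem locS_mk_eq_zero_iff (q : Nat.Primes) {n : ℕ} (z : Zsm (lvlS S) A n) :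
    locS S A q n (Hsm.mk (lvlS S) A n z) = 0 ↔
      (fun h : Fin n → Gv q => ResMod.toRes (ιv q) (z.1 (fun i => ιv q (h i)))) ∈
        Bsm (lvlLoc q) (ResMod (ιv q) A) n := by
  have h : locS S A q n (Hsm.mk (lvlS S) A n z) =
      Hsm.mk (lvlLoc q) (ResMod (ιv q) A) n
        (Zsm.pmap (ιv q) (lvlS_comap_le_lvlLoc S q)
          (ResMod.toRes (ιv q) : A ≃+ ResMod (ιv q) A).toAddMonoidHom
          (fun x a => (ResMod.smul_def (ιv q) x a).symm) n z) := rfl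
  rw [h, Hsm.mk_eq_zero_iff]
  rfl

theorem mk_mem_Sha_iff {n : ℕ} (z : Zsm (lvlS S) A n) :
    Hsm.mk (lvlS S) A n z ∈ Sha S A n ↔
      ∀ q : ↥S, (fun h : Fin n → Gv q.1 => ResMod.toRes (ιv q.1) (z.1 (fun i => ιv q.1 (h i)))) ∈
        Bsm (lvlLoc q.1) (ResMod (ιv q.1) A) n := by
  rw [mem_Sha_iff]
  exact forall_congr' fun q => locS_mk_eq_zero_iff q.1 z

end Fermat.Agent.S55
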