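/-
S55 : THE INTERFACE BETWEEN `LOC` AND ITS CONSUMERS (`BR`, `UNITS`, `EXIST`, final assembly).

`LocPkg p q` = everything the global blocks are allowed to use about the local Galois group
`Gv q` acting on `Kx`.  LOC has to construct `LocPkg p q` for all primes `p`, `q`
(`p` odd if that helps); the consumers take `(L : ∀ q, LocPkg p q)` as a variable.
Only definitions.
-/
import Fermat.Agent.S55.Formal.Contract
import Fermat.Agent.S55.Coh.Cyclic
import Fermat.Agent.S55.Coh.H0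
import Fermat.Agent.S55.Coh.ShapiroDef
import Fermat.Agent.S55.Arith.Smooth
import Fermat.Prelude.Def_EllipticCurve_FrobeniusTrace

set_option autoImplicit false

namespace Fermat.Agent.S55

/-- The localisation map `H^n(A) → H^n_q(A)` for the full level system. -/
noncomputable def locA (A : Type) [AddCommGroup A] [DistribMulAction GQ A] (q : Nat.Primes)
    (n : ℕ) : Hsm lvlAll A n →+ Hloc q A n :=
  Hsm.res A (ιv q) (lvlLoc q) lvlAll (LevelSys.Le.refl _) n

/-- `Kx` as a module under the local Galois group. -/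
abbrev KL (q : Nat.Primes) : Type := ResMod (ιv q) Kx

/-- The chosen place of `Qb` over `q`. -/
noncomputable abbrev plc (q : Nat.Primes) : ValuationSubring Qb := ExtCitation.primeLocalPlace q

/-- The inertia subgroup of the local Galois group. -/
noncomputable def inertiaLoc (q : Nat.Primes) : Subgroup (Gv q) :=
  ((plc q).inertiaSubgroupIn ℚ).comap (ιv q)

/-- `φ` is a Frobenius element of the local Galois group. -/
def IsFrobLoc (q : Nat.Primes) (φ : Gv q) : Prop := (plc q).IsFrobeniusAt (ιv q φ) (q : ℕ)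

/-- `v(x) = c · v(q)` for the chosen place over `q`. -/
def HasOrdAt (q : Nat.Primes) (x : Kx) (c : ℤ) : Prop :=
  (plc q).valuation x.val = (plc q).valuation ((q : ℕ) : Qb) ^ c

/-- The class of a rational number in `ℚ/ℤ`. -/
def QZ.mk : ℚ →+ QZ := QuotientAddGroup.mk' _

/-- `ZMod p → ℚ/ℤ`, `c ↦ c/p`. -/
noncomputable def zmodToQZ (p : ℕ) : ZMod p →+ QZ :=
  ZMod.lift p ⟨(zmultiplesHom QZ) (QZ.mk (1 / (p : ℚ))), by
    by_cases hp : (p : ℚ) = 0
    · simp [hp]
    · rw [zmultiplesHom_apply, ← map_zsmul]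
      refine (QuotientAddGroup.eq_zero_iff _).2 ⟨1, ?_⟩
      simp [hp]⟩

section local_sets

variable (q : Nat.Primes) (Y : Type) [MulAction (Gv q) Y]

/-- `H^n_q(K_Y)` for a finite `G_q`-set `Y`. -/
abbrev HKY (n : ℕ) : Type := Hsm (lvlLoc q) (IndMod Y (KL q)) n

/-- `inv_Y = inv_q ∘ (sum over Y)_*`. -/
noncomputable def invY [Finite Y] (inv : Hsm (lvlLoc q) (KL q) 2 →+ QZ) : HKY q Y 2 →+ QZ :=
  inv.comp (Hsm.map (IndMod.sum Y (KL q)) 2)

end local_sets

/-- THE LOCAL PACKAGE at the prime `q`, for `p`-primary cohomology. -/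
structure LocPkg (p : ℕ) (q : Nat.Primes) where
  /-- (L2) the invariant map -/
  inv : Hsm (lvlLoc q) (KL q) 2 →+ QZ
  /-- (L1) Hilbert 90 -/
  L1 : ∀ (Y : Type) [MulAction (Gv q) Y] [Finite Y] [SmoothSet (lvlLoc q) Y]
    (y : HKY q Y 1), y = 0
  /-- (L3) `inv_Y` is injective on the `p`-primary part, `Y` transitive -/
  L3inj : ∀ (Y : Type) [MulAction (Gv q) Y] [Finite Y] [SmoothSet (lvlLoc q) Y]
    [MulAction.IsPretransitive (Gv q) Y], ∀ y ∈ pPrimary p (HKY q Y 2), invY q Y inv y = 0 → y = 0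
  /-- (L3) `inv_Y` maps the `p`-primary part onto `(ℚ/ℤ)(p)`, `Y` transitive nonempty -/
  L3surj : ∀ (Y : Type) [MulAction (Gv q) Y] [Finite Y] [SmoothSet (lvlLoc q) Y]
    [MulAction.IsPretransitive (Gv q) Y] [Nonempty Y], ∀ c ∈ pPrimary p QZ,
    ∃ y ∈ pPrimary p (HKY q Y 2), invY q Y inv y = c
  /-- (L6) the invariant of `θ_σ(a)` for an unramified cyclic cover `Y' → Y`, `Y` transitive:
  `ord(a(y)) · k / m` where `φ^{|Y|} y' = σ^k y'`. -/
  L6 : ∀ (Y Y' : Type) [MulAction (Gv q) Y] [MulAction (Gv q) Y'] [Finite Y] [Finite Y']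
    [SmoothSet (lvlLoc q) Y] [SmoothSet (lvlLoc q) Y'] [MulAction.IsPretransitive (Gv q) Y]
    (u : Y' →[Gv q] Y) (σ : Y' →[Gv q] Y') (m : ℕ) (h : CyclicCover u σ m),
    (∀ τ ∈ inertiaLoc q, ∀ y' : Y', τ • y' = y') →
    ∀ (φ : Gv q), IsFrobLoc q φ → ∀ (y' : Y') (k : ℕ), φ ^ (Nat.card Y) • y' = σ^[k] y' →
    ∀ (a : HKY q Y 0) (c : ℤ),
      HasOrdAt q ((ResMod.toRes (ιv q)).symm ((Hsm.H0equiv a : IndMod Y (KL q)) (u y'))) c →
      invY q Y inv ((h.fourTerm (A := KL q)).theta 0 a) = QZ.mk ((c * k : ℚ) / m)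
  /-- (L7) unramified cocycles with unit values are coboundaries -/
  L7 : ∀ (Y : Type) [MulAction (Gv q) Y] [Finite Y] [SmoothSet (lvlLoc q) Y]
    (z : Zsm (lvlLoc q) (IndMod Y (KL q)) 2) (N : Subgroup (Gv q)),
    inertiaLoc q ≤ N → IsLevelAt N z.1 → (∀ τ ∈ inertiaLoc q, ∀ y : Y, τ • y = y) →
    (∀ g y, Kx.IsUnitAt (plc q) ((ResMod.toRes (ιv q)).symm (z.1 g y))) →
    Hsm.mk (lvlLoc q) (IndMod Y (KL q)) 2 z = 0
  /-- (L8) the index of `p`-th powers, when `μ_p` is contained in the local field -/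
  L8 : ∀ (Y : Type) [MulAction (Gv q) Y] [Finite Y] [SmoothSet (lvlLoc q) Y]
    [MulAction.IsPretransitive (Gv q) Y] (y : Y),
    (∀ τ : Gv q, τ • y = y → ∀ ζ : Mu p, ιv q τ • ζ = ζ) →
    (nsmulAddMonoidHom (α := HKY q Y 0) p).range.index =
      p ^ (2 + if (q : ℕ) = p then Nat.card Y else 0)
  /-- the invariant map on `H^2_q(μ_p)` -/
  t : Hloc q (Mu p) 2 →+ ZMod p
  /-- `t` is `inv` on `μ_p`-classes -/
  t_spec : ∀ x : Hloc q (Mu p) 2,
    inv (Hsm.map (ResMod.map (ιv q) (muSub p).inclG) 2 x) = zmodToQZ p (t x)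

end Fermat.Agent.S55
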