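/-
S55 / task H90-1 : HILBERT 90 for crossed homomorphisms, for an arbitrary group `H` mapping to
`GQ` (global group, local groups, open subgroups, ... all at once).

Proof (Poincaré series).  `β` is right invariant under `f⁻¹(N)`, `N = F.fixingSubgroup`, `F/ℚ` finite
and stable.  `f⁻¹(N)` has finite index in `H` (`H / f⁻¹(N)` embeds in `GQ / N`).  For `c ∈ F` put
`P(c) = ∑_{τ ∈ H / f⁻¹(N)} (β τ).val * (f τ) c`  (well defined).  The maps `c ↦ (f τ) c`,
`F → Qb`, are pairwise distinct monoid homomorphisms for distinct cosets, hence linearly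
independent (`linearIndependent_monoidHom`), so `P(c) ≠ 0` for some `c`.
`(f σ) (P c) = ∑ (f σ)(β τ) * (f (σ τ)) c = (β σ)⁻¹ * ∑ β (σ τ) * (f (σ τ)) c = (β σ)⁻¹ * P c`.
Take `a = (P c)⁻¹`.
-/
import Fermat.Agent.S55.Arith.Defs

set_option autoImplicit false

namespace Fermat.Agent.S55

theorem Kx.val_injective : Function.Injective Kx.val := by
  intro x y h
  exact Additive.toMul.injective (Units.ext h)

theorem Kx.val_ne_zero (x : Kx) : x.val ≠ 0 := (Additive.toMul x : Qbˣ).ne_zero

theorem Kx.val_sub (x y : Kx) : (x - y).val = x.val * (y.val)⁻¹ := by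
  rw [sub_eq_add_neg, Kx.val_add, Kx.val_neg]

/-- The element of `Kx` attached to a nonzero element of `Qb`. -/
noncomputable def Kx.mk0 (x : Qb) (hx : x ≠ 0) : Kx := Additive.ofMul (Units.mk0 x hx)

theorem Kx.val_mk0 (x : Qb) (hx : x ≠ 0) : (Kx.mk0 x hx).val = x := rfl

theorem hilbert90_crossed {H : Type} [Group H] (f : H →* GQ) (β : H → Kx)
    (hβ : ∀ h h', β (h * h') = β h + f h • β h')
    (hlev : ∃ N ∈ lvlAll.carrier, ∀ h n, f n ∈ N → β (h * n) = β h) :
    ∃ a : Kx, ∀ h, β h = f h • a - a := by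
  classical
  obtain ⟨N, hN, hinv⟩ := hlev
  have hNfin : (N.comap f).FiniteIndex := (lvlAll.comap f).finiteIndex _ ⟨N, hN, rfl⟩
  obtain ⟨F, -, -, rfl⟩ := hN
  set M : Subgroup H := (F.fixingSubgroup).comap f with hM
  haveI : Finite (H ⧸ M) := Subgroup.finite_quotient_of_finiteIndex
  haveI : Fintype (H ⧸ M) := Fintype.ofFinite _
  have hfix : ∀ n : H, n ∈ M → ∀ c : F, f n (c : Qb) = c := by
    intro n hn c
    exact (IntermediateField.mem_fixingSubgroup_iff F (f n)).1 hn c c.2
  -- the characters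
  let χ₀ : H → (F →* Qb) := fun h =>
    { toFun := fun c => f h (c : Qb)
      map_one' := by simp
      map_mul' := by intro a b; simp }
  have hχ₀ : ∀ a b : H, QuotientGroup.leftRel M a b → χ₀ a = χ₀ b := by
    intro a b hab
    rw [QuotientGroup.leftRel_apply] at hab
    ext c
    change f a (c : Qb) = f b (c : Qb)
    have h1 : b = a * (a⁻¹ * b) := by group
    rw [h1, map_mul]
    change f a (c : Qb) = f a (f (a⁻¹ * b) (c : Qb))
    rw [hfix _ hab c]
  let χ : H ⧸ M → (F →* Qb) := Quotient.lift χ₀ hχ₀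
  have hχinj : Function.Injective χ := by
    intro x y
    induction x using Quotient.inductionOn with | _ a => ?_
    induction y using Quotient.inductionOn with | _ b => ?_
    intro h
    apply Quotient.sound
    change QuotientGroup.leftRel M a b
    rw [QuotientGroup.leftRel_apply]
    change f (a⁻¹ * b) ∈ F.fixingSubgroup
    rw [IntermediateField.mem_fixingSubgroup_iff]
    intro c hc
    have h1 : f a c = f b c := DFunLike.congr_fun h (⟨c, hc⟩ : F)
    rw [map_mul, map_inv]
    change (f a).symm (f b c) = c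
    rw [← h1]
    exact (f a).symm_apply_apply c
  -- the coefficients
  have hb₀ : ∀ a b : H, QuotientGroup.leftRel M a b → (β a).val = (β b).val := by
    intro a b hab
    rw [QuotientGroup.leftRel_apply] at hab
    have h1 : b = a * (a⁻¹ * b) := by group
    rw [h1, hinv a _ hab]
  let b : H ⧸ M → Qb := Quotient.lift (fun h => (β h).val) hb₀
  have hli : LinearIndependent Qb (fun τ : H ⧸ M => (χ τ : F → Qb)) :=
    (linearIndependent_monoidHom F Qb).comp χ hχinj
  -- non vanishing
  have hex : ∃ c : F, ∑ τ : H ⧸ M, b τ * χ τ c ≠ 0 := by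
    by_contra hcon
    push Not at hcon
    have hzero : ∑ τ : H ⧸ M, b τ • (χ τ : F → Qb) = 0 := by
      ext c
      simp only [Finset.sum_apply, Pi.smul_apply, smul_eq_mul, Pi.zero_apply]
      exact hcon c
    have := Fintype.linearIndependent_iff.1 hli b hzero (QuotientGroup.mk 1)
    exact Kx.val_ne_zero (β 1) this
  obtain ⟨c, hc⟩ := hex
  set P : Qb := ∑ τ : H ⧸ M, b τ * χ τ c with hP
  -- transformation rule
  have htrans : ∀ σ : H, (β σ).val * f σ P = P := by
    intro σ
    rw [hP, map_sum, Finset.mul_sum]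
    rw [← Equiv.sum_comp (MulAction.toPerm σ : Equiv.Perm (H ⧸ M)) (fun τ => b τ * χ τ c)]
    refine Finset.sum_congr rfl fun τ _ => ?_
    induction τ using Quotient.inductionOn with | _ t => ?_
    change (β σ).val * f σ ((β t).val * f t (c : Qb)) = (β (σ * t)).val * f (σ * t) (c : Qb)
    rw [hβ σ t, Kx.val_add, Kx.val_smul, map_mul, map_mul]
    change _ = (β σ).val * f σ (β t).val * f σ (f t (c : Qb))
    ring
  refine ⟨-Kx.mk0 P hc, fun σ => ?_⟩
  apply Kx.val_injective
  have hσP : f σ P ≠ 0 := by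
    intro h0
    apply hc
    rw [← htrans σ, h0, mul_zero]
  rw [Kx.val_sub, Kx.val_smul, Kx.val_neg, Kx.val_mk0, inv_inv, map_inv₀]
  have h1 := htrans σ
  field_simp
  exact h1

end Fermat.Agent.S55
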