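/-
S55 : HILBERT 90 in the language of smooth cohomology (tasks ARITH-H90 and H90-2, one file).
Everything is deduced from `hilbert90_crossed` (Poincaré series, `Arith/Hilbert90Core.lean`):
* `Hsm_one_eq_zero_of_crossed` : `H^1 = 0` as soon as all smooth crossed homomorphisms are principal;
* `hilbert90_fun` : crossed homomorphisms with values in `Map(Y, Qbˣ)` (orbit representatives and
  stabilisers, elementary form);
* the exported forms `hilbert90` (= `hilbert90_ind`), `hilbert90_res`, `hilbert90_global`,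
  `hilbert90_local`, `hilbert90_local_res`, `hilbert90_local_coset`, `Hsm_one_eq_zero_of_Kx`,
  `hilbert90_LS` (coefficients `Map(X, (ℚ_S)ˣ)`).
-/
import Fermat.Agent.S55.Arith.Hilbert90Core
import Fermat.Agent.S55.Arith.Smooth
import Fermat.Agent.S55.Coh.H0
import Fermat.Agent.S55.Coh.Functor
import Fermat.Agent.S55.Coh.SetDefs
import Fermat.Agent.S55.Formal.Efface1

set_option autoImplicit false

namespace Fermat.Agent.S55

/-- `H^1 = 0` if every smooth crossed homomorphism is principal. -/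
theorem Hsm_one_eq_zero_of_crossed {H : Type} [Group H] (𝓝 : LevelSys H) (B : Type)
    [AddCommGroup B] [DistribMulAction H B]
    (key : ∀ β : H → B, (∀ h h', β (h * h') = β h + h • β h') →
      (∃ N ∈ 𝓝.carrier, ∀ h n, n ∈ N → β (h * n) = β h) → ∃ b : B, ∀ h, β h = h • b - b)
    (x : Hsm 𝓝 B 1) : x = 0 := by
  induction x using Hsm.induction_on with
  | h z =>
    rw [Hsm.mk_eq_zero_iff, mem_Bsm_succ]
    obtain ⟨z, hz⟩ := z
    obtain ⟨N, hN, hlev⟩ := hz.1
    obtain ⟨b, hb⟩ := key (fun h => z fun _ => h) (fun h h' => Formal.cocycle_one hz h h')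
      ⟨N, hN, fun h n hn => (hlev _ _ fun _ => by simpa using hn).symm⟩
    refine ⟨fun _ => b, mem_Csm_zero _, ?_⟩
    funext g
    rw [dd_zero_apply]
    have hg : g = fun _ => g 0 := by
      funext i
      exact congrArg g (Fin.eq_zero i)
    change g 0 • b - b = z g
    rw [← hb (g 0)]
    exact congrArg z hg.symm

/-- Hilbert 90 for crossed homomorphisms with values in `Map(Y, Qbˣ)`, elementary form. -/
theorem hilbert90_fun {H : Type} [Group H] (f : H →* GQ) (Y : Type) [MulAction H Y]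
    (c : H → Y → Kx) (hc : ∀ h h' y, c (h * h') y = c h y + f h • c h' (h⁻¹ • y))
    (hlev : ∃ N ∈ lvlAll.carrier, ∀ h n, f n ∈ N → c (h * n) = c h) :
    ∃ a : Y → Kx, ∀ h y, c h y = f h • a (h⁻¹ • y) - a y := by
  classical
  obtain ⟨N, hN, hinv⟩ := hlev
  -- stabilisers
  have hstab : ∀ y₀ : Y, ∃ a₀ : Kx, ∀ u : H, u • y₀ = y₀ → c u y₀ = f u • a₀ - a₀ := by
    intro y₀
    obtain ⟨a₀, ha₀⟩ := hilbert90_crossed (f.comp (MulAction.stabilizer H y₀).subtype)
      (fun u => c u y₀)
      (fun u u' => by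
        have h1 : ((u : H))⁻¹ • y₀ = y₀ := by
          rw [inv_smul_eq_iff]
          exact (MulAction.mem_stabilizer_iff.1 u.2).symm
        have := hc u u' y₀
        rw [h1] at this
        exact this)
      ⟨N, hN, fun u n hn => by
        have := hinv u n hn
        exact congrFun this y₀⟩
    exact ⟨a₀, fun u hu => ha₀ ⟨u, hu⟩⟩
  choose a₀ ha₀ using hstab
  -- orbit representatives
  let rep : Y → Y := fun y => (Quotient.mk (MulAction.orbitRel H Y) y).out
  have hrep : ∀ y, ∃ h : H, h • rep y = y := by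
    intro y
    have h1 : (MulAction.orbitRel H Y) (rep y) y := Quotient.exact (Quotient.out_eq _)
    rw [MulAction.orbitRel_apply] at h1
    obtain ⟨h, hh⟩ := h1
    exact ⟨h⁻¹, by rw [← hh, inv_smul_smul]⟩
  have hrep_smul : ∀ (g : H) (y : Y), rep (g • y) = rep y := by
    intro g y
    have : Quotient.mk (MulAction.orbitRel H Y) (g • y) = Quotient.mk (MulAction.orbitRel H Y) y := by
      apply Quotient.sound
      change (MulAction.orbitRel H Y) (g • y) y
      rw [MulAction.orbitRel_apply]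
      exact ⟨g, rfl⟩
    simp only [rep, this]
  choose t ht using hrep
  let a : Y → Kx := fun y => f (t y) • a₀ (rep y) - c (t y) y
  -- independence of the choice of `t`
  have hindep : ∀ (y : Y) (h : H), h • rep y = y → a y = f h • a₀ (rep y) - c h y := by
    intro y h hh
    set u : H := (t y)⁻¹ * h with hu
    have hu1 : u • rep y = rep y := by
      rw [hu, mul_smul, hh, inv_smul_eq_iff, ht y]
    have hh' : h = t y * u := by rw [hu]; group
    have h1 := hc (t y) u y
    have h2 : (t y)⁻¹ • y = rep y := by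
      rw [inv_smul_eq_iff, ht y]
    rw [h2, ha₀ (rep y) u hu1, ← hh'] at h1
    change f (t y) • a₀ (rep y) - c (t y) y = _
    rw [h1, hh', map_mul, mul_smul, smul_sub]
    abel
  refine ⟨a, fun g y => ?_⟩
  have h1 : a (g⁻¹ • y) = f (g⁻¹ * t y) • a₀ (rep y) - c (g⁻¹ * t y) (g⁻¹ • y) := by
    have := hindep (g⁻¹ • y) (g⁻¹ * t y) (by rw [hrep_smul, mul_smul, ht y])
    rwa [hrep_smul] at this
  have h2 := hc g (g⁻¹ * t y) y
  rw [mul_inv_cancel_left] at h2
  rw [h1, smul_sub, ← mul_smul, ← map_mul, mul_inv_cancel_left]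
  change _ = _ - (f (t y) • a₀ (rep y) - c (t y) y)
  rw [h2]
  abel

/-- General form: `H` any group with `f : H →* GQ`, `𝓝H` any level system coarser than the
pull-back of `lvlAll`, `B` any copy of `Kx` with the action through `f`. -/
theorem Hsm_one_eq_zero_of_Kx {H : Type} [Group H] (f : H →* GQ) (𝓝H : LevelSys H)
    (hle : 𝓝H.Le (lvlAll.comap f)) (B : Type) [AddCommGroup B] [DistribMulAction H B]
    (e : Kx ≃+ B) (he : ∀ (h : H) (a : Kx), h • e a = e (f h • a)) (x : Hsm 𝓝H B 1) : x = 0 := by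
  refine Hsm_one_eq_zero_of_crossed 𝓝H B (fun β hβ hlev => ?_) x
  obtain ⟨N, hN, hinv⟩ := hlev
  obtain ⟨_, ⟨N', hN', rfl⟩, hle'⟩ := hle N hN
  obtain ⟨a, ha⟩ := hilbert90_crossed f (fun h => e.symm (β h))
    (fun h h' => by
      apply e.injective
      rw [map_add, ← he, e.apply_symm_apply, e.apply_symm_apply, e.apply_symm_apply]
      exact hβ h h')
    ⟨N', hN', fun h n hn => by rw [hinv h n (hle' hn)]⟩
  refine ⟨e a, fun h => ?_⟩
  rw [he, ← map_sub, ← ha h, e.apply_symm_apply]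

/-- Coefficients `Map(Y, Kx)`, `Y` an `H`-set. -/
theorem hilbert90_ind {H : Type} [Group H] (f : H →* GQ) (Y : Type) [MulAction H Y] [Finite Y]
    [SmoothSet (lvlAll.comap f) Y] (x : Hsm (lvlAll.comap f) (IndMod Y (ResMod f Kx)) 1) :
    x = 0 := by
  refine Hsm_one_eq_zero_of_crossed _ _ (fun β hβ hlev => ?_) x
  obtain ⟨_, ⟨N, hN, rfl⟩, hinv⟩ := hlev
  obtain ⟨a, ha⟩ := hilbert90_fun f Y (fun h y => (ResMod.toRes f).symm (β h y))
    (fun h h' y => by
      have := DFunLike.congr_fun (hβ h h') y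
      exact this)
    ⟨N, hN, fun h n hn => by rw [hinv h n hn]⟩
  refine ⟨IndMod.of fun y => ResMod.toRes f (a y), fun h => ?_⟩
  refine IndMod.ext fun y => ?_
  exact ha h y

/-- Hilbert 90 for an arbitrary group `H` acting on `Qb` through `f : H →* GQ`. -/
theorem hilbert90 {H : Type} [Group H] (f : H →* GQ) (Y : Type) [MulAction H Y] [Finite Y]
    [SmoothSet (lvlAll.comap f) Y] (y : Hsm (lvlAll.comap f) (IndMod Y (ResMod f Kx)) 1) :
    y = 0 := hilbert90_ind f Y y

/-- Coefficients `Res (Map(X, Kx))`, `X` a finite smooth `GQ`-set. -/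
theorem hilbert90_res {H : Type} [Group H] (f : H →* GQ) (X : Type) [MulAction GQ X] [Finite X]
    [SmoothSet lvlAll X] (x : Hsm (lvlAll.comap f) (ResMod f (IndMod X Kx)) 1) : x = 0 := by
  apply (Hsm.mapEquiv (𝓝 := lvlAll.comap f) (IndMod.toResSet f X Kx) (IndMod.ofResSet f X Kx)
    (IndMod.ofResSet_toResSet f X Kx) (IndMod.toResSet_ofResSet f X Kx) 1).injective
  rw [map_zero]
  exact hilbert90_ind f (ResSet f X) _

/-- The global case. -/
theorem hilbert90_global (X : Type) [MulAction GQ X] [Finite X] [SmoothSet lvlAll X]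
    (x : Hsm lvlAll (IndMod X Kx) 1) : x = 0 := by
  refine Hsm_one_eq_zero_of_crossed _ _ (fun β hβ hlev => ?_) x
  obtain ⟨N, hN, hinv⟩ := hlev
  obtain ⟨a, ha⟩ := hilbert90_fun (MonoidHom.id GQ) X (fun h y => β h y)
    (fun h h' y => by
      have := DFunLike.congr_fun (hβ h h') y
      exact this)
    ⟨N, hN, fun h n hn => by rw [hinv h n hn]⟩
  refine ⟨IndMod.of a, fun h => ?_⟩
  refine IndMod.ext fun y => ?_
  exact ha h y

/-- Local form (field `L1` of `LocPkg`). -/
theorem hilbert90_local (q : Nat.Primes) (Y : Type) [MulAction (Gv q) Y] [Finite Y]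
    [h : SmoothSet (lvlLoc q) Y] (y : Hsm (lvlLoc q) (IndMod Y (ResMod (ιv q) Kx)) 1) : y = 0 :=
  haveI : SmoothSet (lvlAll.comap (ιv q)) Y := h
  hilbert90 (ιv q) Y y

/-- The local case, coefficients `Res (Map(X, Kx))`, `X` a finite smooth `GQ`-set. -/
theorem hilbert90_local_res (q : Nat.Primes) (X : Type) [MulAction GQ X] [Finite X]
    [SmoothSet lvlAll X] (x : Hsm (lvlLoc q) (ResMod (ιv q) (IndMod X Kx)) 1) : x = 0 :=
  hilbert90_res (ιv q) X x

/-- The local case, coset spaces of the local group (shape of `Loc.LocalInput.h90`). -/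
theorem hilbert90_local_coset (q : Nat.Primes) (U : Subgroup (Gv q)) (hU : (lvlLoc q).IsOpen U)
    (x : Hsm (lvlLoc q) (IndMod (Gv q ⧸ U) (ResMod (ιv q) Kx)) 1) : x = 0 := by
  haveI : SmoothSet (lvlLoc q) (Gv q ⧸ U) := SmoothSet.quotient (lvlLoc q) hU
  haveI : U.FiniteIndex := hU.finiteIndex
  haveI : Finite (Gv q ⧸ U) := Subgroup.finite_quotient_of_finiteIndex
  exact hilbert90_local q (Gv q ⧸ U) x

/-- Hilbert 90 for `ℚ_S`: `H^1_S(Map(X, (ℚ_S)ˣ)) = 0`. -/
theorem hilbert90_LS (S : Finset Nat.Primes) (X : Type) [MulAction GQ X] [Finite X]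
    [SmoothSet (lvlS S) X] (y : Hsm (lvlS S) (IndMod X (LSx S)) 1) : y = 0 := by
  refine Hsm_one_eq_zero_of_crossed _ _ (fun β hβ hlev => ?_) y
  obtain ⟨N, hN, hinv⟩ := hlev
  have hNall : N ∈ lvlAll.carrier := by
    obtain ⟨F, hf, hn, rfl⟩ := hN
    exact ⟨F, hf.1, hn, rfl⟩
  obtain ⟨a, ha⟩ := hilbert90_fun (MonoidHom.id GQ) X (fun h x => (LSsub S).incl (β h x))
    (fun h h' x => by
      have := congrArg (LSsub S).incl (DFunLike.congr_fun (hβ h h') x)
      exact this)
    ⟨N, hNall, fun h n hn => by rw [hinv h n hn]⟩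
  obtain ⟨N', hN', hfix⟩ := SmoothSet.exists_fix_all (lvlS S) X
  obtain ⟨N'', hN'', hle⟩ := (lvlS S).directed N hN N' hN'
  have hβ1 : β 1 = 0 := by
    have := hβ 1 1
    rw [mul_one, one_smul] at this
    exact left_eq_add.1 this
  have hβn : ∀ n ∈ N, β n = 0 := by
    intro n hn
    have := hinv 1 n hn
    rwa [one_mul, hβ1] at this
  have hmem : ∀ x : X, a x ∈ (LSsub S).toAddSubgroup := by
    intro x
    refine ⟨N'', hN'', fun n hn => ?_⟩
    have h1 := ha n x
    have h2 : n⁻¹ • x = x := hfix _ (N'.inv_mem (hle hn).2) x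
    rw [h2, hβn n (hle hn).1] at h1
    have h3 : (0 : Kx) = n • a x - a x := h1
    exact (sub_eq_zero.1 h3.symm)
  refine ⟨IndMod.of fun x => (LSsub S).mkMod (a x) (hmem x), fun h => ?_⟩
  refine IndMod.ext fun x => ?_
  apply (LSsub S).incl_injective
  exact ha h x

end Fermat.Agent.S55
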