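/-
S55 : THE INTERFACE BETWEEN `BR` AND ITS CONSUMER `UNITS` (author: helper83, block UNITS).

`BrPkg p L` = everything UNITS uses about the `p`-primary part of the Brauer groups
`H^2(Map(GQ ⧸ U, Qbˣ)) = Br(F)`, `F` the fixed field of the open subgroup `U`, in terms of the local
package `L : ∀ q, LocPkg p q`.  (`p` is odd, so the real places play no role.)
BR has to prove `BrPkg p L` for every `L`; UNITS takes `(B : BrPkg p L)` as a variable.
Only definitions.
-/
import Fermat.Agent.S55.Units.T1.Defs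
import Fermat.Agent.S55.Coh.Theta

set_option autoImplicit false

namespace Fermat.Agent.S55

/-- THE BRAUER PACKAGE. -/
structure BrPkg (p : ℕ) (L : ∀ q, LocPkg p q) : Prop where
  /-- (B1) the Hasse principle for `Br(F)(p)` -/
  B1 : ∀ U : Subgroup GQ, lvlAll.IsOpen U →
    ∀ x ∈ pPrimary p (Hsm lvlAll (IndMod (GQ ⧸ U) Kx) 2),
      (∀ q : Nat.Primes, locA (IndMod (GQ ⧸ U) Kx) q 2 x = 0) → x = 0
  /-- (B3) reciprocity: the sum of the local invariants of a class of `Br(F)(p)` vanishes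
  (`T` any finite set of primes outside of which the class is locally trivial) -/
  B3 : ∀ U : Subgroup GQ, lvlAll.IsOpen U → ∀ _ : Finite (GQ ⧸ U),
    ∀ x ∈ pPrimary p (Hsm lvlAll (IndMod (GQ ⧸ U) Kx) 2), ∀ T : Finset Nat.Primes,
      (∀ q : Nat.Primes, q ∉ T → locA (IndMod (GQ ⧸ U) Kx) q 2 x = 0) →
      ∑ q ∈ T, invX (L q) (GQ ⧸ U) (locA (IndMod (GQ ⧸ U) Kx) q 2 x) = 0
  /-- (B4) existence: a family of `p`-primary local classes at the primes of `S ∋ p` whose
  invariants sum to `0` is the family of localisations of a cyclic class `θ(b)`, `b ∈ Fˣ`, which is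
  split by a cyclic cover of `p`-power degree UNRAMIFIED OUTSIDE `S` (a layer of the cyclotomic
  tower `F(μ_{p^M})`; `F ∋ μ_p`), and is locally trivial outside `S`. -/
  B4 : ∀ S : Finset Nat.Primes, (∃ q ∈ S, (q : ℕ) = p) →
    ∀ U : Subgroup GQ, (lvlS S).IsOpen U → ActsTrivially U (Mu p) → ∀ _ : Finite (GQ ⧸ U),
    ∀ y : (∀ q : ↥S, Hloc q.1 (IndMod (GQ ⧸ U) Kx) 2), (∀ q, y q ∈ pPrimary p _) →
      ∑ q : ↥S, invX (L q.1) (GQ ⧸ U) (y q) = 0 →
      ∃ (X' : Type) (_ : MulAction GQ X') (_ : Finite X') (_ : SmoothSet (lvlS S) X')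
        (_ : SmoothSet lvlAll X') (u : X' →[GQ] GQ ⧸ U) (σ : X' →[GQ] X') (k : ℕ)
        (h : CyclicCover u σ (p ^ k)) (b : Hsm lvlAll (IndMod (GQ ⧸ U) Kx) 0),
        (∀ q : ↥S, locA _ q.1 2 (h.theta lvlAll Kx 0 b) = y q) ∧
        ∀ q : Nat.Primes, q ∉ S → locA _ q 2 (h.theta lvlAll Kx 0 b) = 0

end Fermat.Agent.S55
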